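import Fermat.Agent.S30.Defs2
import Fermat.Agent.R.H89_CycChar

/-!
# S30U from the Tate piece with unipotent inertia (helper91, cluster R / item 65)

`Stmt_TatePieceU` is the interface to the geometric package BAD_q (item 65): the Tate piece of
`Fermat.Agent.S30.Stmt_TatePiece` together with

  for every prime `q ∥ N`, `q ≠ p`, and every `σ` in an inertia group over `q`:
  `(ρ σ - 1) ^ 2 = 0`

(semistable reduction of `J₀(N)` at `q`).  Together with the pure-algebra assembly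
`Fermat.Agent.S30.Stmt_Assemble` (owner helper29) and the cyclotomic character
(`Fermat.Agent.R.H89.stmt_CycChar`) it gives `Fermat.Agent.R.Stmt_S30U`, which is all that
`Fermat.Agent.S34.of_S30U` needs.
-/

set_option autoImplicit false

open Polynomial

namespace Fermat.Agent.S34.H91

open Fermat.Agent.S30 Fermat.Agent.R

/-- **Interface to BAD_q (item 65).**  The Tate piece of `Stmt_TatePiece` with, in addition,
inertia at the primes `q ∥ N`, `q ≠ p`, acting unipotently of order `2`. -/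
def Stmt_TatePieceU : Prop :=
  ∀ (p : ℕ) [Fact p.Prime] (N : ℕ) [NeZero N] (S : Finset ℕ)
    (_hpS : p ∈ S) (_hNS : ∀ q : ℕ, q.Prime → q ∣ N → q ∈ S)
    (𝒪' : Type) [CommRing 𝒪'] [IsDomain 𝒪'] [IsDiscreteValuationRing 𝒪']
    [IsAdicComplete (IsLocalRing.maximalIdeal 𝒪') 𝒪'] [Finite (IsLocalRing.ResidueField 𝒪')]
    [CharZero 𝒪'] (_hp𝒪' : (p : 𝒪') ∈ IsLocalRing.maximalIdeal 𝒪')
    (χ : CuspForm.heckeAlgebra N 2 (↑S : Set ℕ) →+* 𝒪'),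
    ∃ (r : ℕ) (ρ : GQ →* Matrix (Fin r) (Fin r) 𝒪'), 0 < r ∧ MatAdicCont ρ ∧
      (∀ (ℓ : ℕ) (hℓ : ℓ.Prime) (hℓN : ¬ ℓ ∣ N) (hℓS : ℓ ∉ (↑S : Set ℕ)),
        ∀ A : ValuationSubring (AlgebraicClosure ℚ), A.LiesOverPrime ℓ →
          ∀ σ : GQ, A.IsFrobeniusAt σ ℓ →
            ρ σ * ρ σ - χ (CuspForm.heckeAlgebra.T hℓ hℓN hℓS) • ρ σ
              + (ℓ : 𝒪') • (1 : Matrix _ _ 𝒪') = 0) ∧
      (∀ q : ℕ, q.Prime → ¬ q ∣ N → q ≠ p → MatUnramAt ρ q) ∧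
      (∀ q : ℕ, q.Prime → q ∣ N → ¬ q ^ 2 ∣ N → q ≠ p →
        ∀ P : ValuationSubring (AlgebraicClosure ℚ), P.LiesOverPrime q →
          ∀ σ ∈ P.inertiaSubgroupIn ℚ, (ρ σ - 1) ^ 2 = 0)

/-- The unipotent Tate piece is in particular a Tate piece. -/
theorem Stmt_TatePieceU.toTatePiece (h : Stmt_TatePieceU) : Stmt_TatePiece := by
  intro p _ N _ S hpS hNS 𝒪' _ _ _ _ _ _ hp χ
  obtain ⟨r, ρ, hr, hc, hES, hun, -⟩ := h p N S hpS hNS 𝒪' hp χ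
  exact ⟨r, ρ, hr, hc, hES, hun⟩

/-- **S30U from the unipotent Tate piece and the assembly.** -/
theorem stmt_S30U_of (hT : Stmt_TatePieceU) (hA : Stmt_Assemble) : Stmt_S30U := by
  intro p _ N _ S hpS hNS 𝒪' _ _ _ _ _ _ hp χ
  classical
  obtain ⟨r, ρ, hr, hc, hES, hun, huni⟩ := hT p N S hpS hNS 𝒪' hp χ
  obtain ⟨ε, hεc, hεcyc, hεun⟩ := Fermat.Agent.R.H89.stmt_CycChar p 𝒪' hp S hpS
  -- the Hecke eigenvalues as a function on `ℕ`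
  let a : ℕ → 𝒪' := fun ℓ =>
    if h : ℓ.Prime ∧ ¬ ℓ ∣ N ∧ ℓ ∉ (↑S : Set ℕ) then
      χ (CuspForm.heckeAlgebra.T h.1 h.2.1 h.2.2) else 0
  have ha : ∀ (ℓ : ℕ) (hℓ : ℓ.Prime) (hℓN : ¬ ℓ ∣ N) (hℓS : ℓ ∉ (↑S : Set ℕ)),
      a ℓ = χ (CuspForm.heckeAlgebra.T hℓ hℓN hℓS) := by
    intro ℓ hℓ hℓN hℓS
    simp only [a]
    rw [dif_pos ⟨hℓ, hℓN, hℓS⟩]
  have hMES : MatES ρ a S := by
    intro ℓ hℓ hℓS A hA' σ hσ
    have hℓN : ¬ ℓ ∣ N := fun hd => hℓS (hNS ℓ hℓ hd)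
    have hℓS' : ℓ ∉ (↑S : Set ℕ) := fun hm => hℓS (Finset.mem_coe.mp hm)
    rw [ha ℓ hℓ hℓN hℓS']
    exact hES ℓ hℓ hℓN hℓS' A hA' σ hσ
  obtain ⟨𝒪'', i1, i2, i3, i4, i5, i6, i7, i8, i9, hinj, ρ'', h1, h2, h3⟩ :=
    hA 𝒪' S a r hr ρ ε hc hεc hMES hεcyc
  refine ⟨𝒪'', i1, i2, i3, i4, i5, i6, i7, i8, i9, hinj, ρ'', ?_, ?_, ?_⟩
  · intro ℓ hℓ hℓN hℓS A hA' σ hσ
    have hℓS' : ℓ ∉ S := fun hm => hℓS (Finset.mem_coe.mpr hm)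
    rw [h1 ℓ hℓ hℓS' A hA' σ hσ, ha ℓ hℓ hℓN hℓS]
  · intro q hq hqN hqp P hP σ hσ
    exact h2 σ (hun q hq hqN hqp P hP σ hσ) (hεun q hq hqp P hP σ hσ)
  · intro q hq hqN hq2 hqp P hP σ hσ
    exact h3 σ (huni q hq hqN hq2 hqp P hP σ hσ) (hεun q hq hqp P hP σ hσ)

end Fermat.Agent.S34.H91
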