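import Fermat.Agent.S34.H91_Chain2
import Fermat.Agent.BAD.H91_ModSSD

/-!
# S34 from the law of total conservation  (helper91)

`s34_of_totMod : BAD.H91.Stmt_TotMod → <frozen S34>`: everything in the chain of S34 is proved
except the law of total conservation of the modular datum of level `M q` (TOT-MOD).
-/

set_option autoImplicit false

open Polynomial IsLocalRing

namespace Fermat.Agent.S34.H91

/-- **S34 from TOT-MOD.** -/
theorem s34_of_totMod (hTot : Fermat.Agent.BAD.H91.Stmt_TotMod)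
    {𝒪 : Type} [CommRing 𝒪] [IsDomain 𝒪] [IsDiscreteValuationRing 𝒪]
    [IsAdicComplete (maximalIdeal 𝒪) 𝒪] [Finite (ResidueField 𝒪)] [CharZero 𝒪]
    {p : ℕ} (hp : p.Prime) (hp𝒪 : (p : 𝒪) ∈ maximalIdeal 𝒪)
    {N : ℕ} [NeZero N] {S : Finset ℕ} (hpS : p ∈ S) (hNS : ∀ q : ℕ, q.Prime → q ∣ N → q ∈ S)
    {θ : CuspForm.heckeAlgebra N 2 (↑S : Set ℕ) →+* ResidueField 𝒪}
    {T : Type} [CommRing T] [IsLocalRing T] [IsNoetherianRing T]
    [IsAdicComplete (maximalIdeal T) T] [Algebra 𝒪 T] [IsLocalHom (algebraMap 𝒪 T)]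
    [Module.Finite 𝒪 T] [Module.Free 𝒪 T]
    (H : CuspForm.HeckeGaloisRepDatum N (↑S : Set ℕ) 𝒪 θ T)
    (q : ℕ) (hq : q.Prime) (hqp : q ≠ p) (hqN : q ∣ N) (hq2 : ¬ q ^ 2 ∣ N) :
    H.ρ.IsUnipotentOnInertiaAt q :=
  s34_of_modSSD
    (fun M q _ hq hqM hq2 ht => Fermat.Agent.BAD.H91.modSSD_tame_of hTot M q hq hqM hq2 ht)
    hp hp𝒪 hpS hNS H q hq hqp hqN hq2

end Fermat.Agent.S34.H91
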