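import Fermat.Agent.S34.Wiring
import Fermat.Agent.S31.Final

/-!
# S34 from `Stmt_S30U` alone (helper86, cluster R)

All algebraic leaves of the wiring are proved.  What is left is `Stmt_S30U`: the frozen
statement S30 together with "inertia at `q ∥ N`, `q ≠ p`, has characteristic polynomial
`(X - 1) ^ 2`" for the constructed representation (package BAD_q, item 65).
-/

set_option autoImplicit false

open Polynomial IsLocalRing

namespace Fermat.Agent.S34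

open Fermat.Agent.R

/-- S34 from S30U. -/
theorem of_S30U (hS30U : Stmt_S30U)
    {𝒪 : Type} [CommRing 𝒪] [IsDomain 𝒪] [IsDiscreteValuationRing 𝒪]
    [IsAdicComplete (maximalIdeal 𝒪) 𝒪] [Finite (ResidueField 𝒪)] [CharZero 𝒪]
    {p : ℕ} (hp : p.Prime) (hp𝒪 : (p : 𝒪) ∈ maximalIdeal 𝒪)
    {N : ℕ} [NeZero N] {S : Finset ℕ} (hpS : p ∈ S) (hNS : ∀ q : ℕ, q.Prime → q ∣ N → q ∈ S)
    {θ : CuspForm.heckeAlgebra N 2 (↑S : Set ℕ) →+* ResidueField 𝒪}
    {T : Type} [CommRing T] [IsLocalRing T] [IsNoetherianRing T]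
    [IsAdicComplete (maximalIdeal T) T] [Algebra 𝒪 T] [IsLocalHom (algebraMap 𝒪 T)]
    [Module.Finite 𝒪 T] [Module.Free 𝒪 T]
    (H : CuspForm.HeckeGaloisRepDatum N (↑S : Set ℕ) 𝒪 θ T)
    (q : ℕ) (hq : q.Prime) (hqp : q ≠ p) (hqN : q ∣ N) (hq2 : ¬ q ^ 2 ∣ N) :
    H.ρ.IsUnipotentOnInertiaAt q :=
  wiring hS30U Fermat.Agent.Lib.FrobDensity.stmt_FD stmt_SepAll hp hp𝒪 hpS hNS H q hq hqp hqN hq2

end Fermat.Agent.S34
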