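import Fermat.Agent.S34.Final
import Fermat.Agent.S34.H91_S30U
import Fermat.Agent.S30.H29_Wiring
import Fermat.Agent.GTor.H81_TU
import Fermat.Agent.BAD.H91_Descend
import Fermat.Agent.Lib.FrobDensity.Main

/-!
# S34: the complete chain from the two open geometric inputs  (helper91)

`s34_of_leaves`: the frozen statement S34 from

* `hS`   : the modular semistable Deuring datum `BAD.Stmt_ModSSD M q` at the tame `(M, q)`, `q ‖ M`
           (item 65, package BAD_q: `TotData` leaves + NUM + GENUS + G-RED `Stmt_DR2`);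
* `hRed` : the reduction packages of G-RED at all levels (`GTor.H81.AllRed`).

Everything else is proved: `BAD.stmt_ABS`, `BAD.H91.stmt_B0`, Kummer descent, T-U
(`GTor.H81.tatePieceU_of`), the assembly `S30.stmt_Assemble_of_FD`, Frobenius density and the
algebra of cluster R (`S34.of_S30U`).
-/

set_option autoImplicit false

open Polynomial IsLocalRing

namespace Fermat.Agent.S34.H91

/-- `Stmt_TatePieceU` from the two geometric inputs. -/
theorem tatePieceU_of_leaves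
    (hS : ∀ (M q : ℕ) [NeZero M], q.Prime → q ∣ M → ¬ q ^ 2 ∣ M →
      Fermat.Agent.BAD.H91.Tame M q → Fermat.Agent.BAD.Stmt_ModSSD M q)
    (hRed : ∀ (N : ℕ) [NeZero N] (p : ℕ), p.Prime → Fermat.Agent.GTor.H81.AllRed N p) :
    Stmt_TatePieceU :=
  Fermat.Agent.GTor.H81.tatePieceU_of
    (fun N _ p hp => Fermat.Agent.BAD.H91.torsUnip_of_tame hS N p hp) hRed

/-- **S34 from the two geometric inputs.** -/
theorem s34_of_leaves
    (hS : ∀ (M q : ℕ) [NeZero M], q.Prime → q ∣ M → ¬ q ^ 2 ∣ M →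
      Fermat.Agent.BAD.H91.Tame M q → Fermat.Agent.BAD.Stmt_ModSSD M q)
    (hRed : ∀ (N : ℕ) [NeZero N] (p : ℕ), p.Prime → Fermat.Agent.GTor.H81.AllRed N p)
    {𝒪 : Type} [CommRing 𝒪] [IsDomain 𝒪] [IsDiscreteValuationRing 𝒪]
    [IsAdicComplete (maximalIdeal 𝒪) 𝒪] [Finite (ResidueField 𝒪)] [CharZero 𝒪]
    {p : ℕ} (hp : p.Prime) (hp𝒪 : (p : 𝒪) ∈ maximalIdeal 𝒪)
    {N : ℕ} [NeZero N] {S : Finset ℕ} (hpS : p ∈ S) (hNS : ∀ q : ℕ, q.Prime → q ∣ N → q ∈ S)
    {θ : CuspForm.heckeAlgebra N 2 (↑S : Set ℕ) →+* ResidueField 𝒪}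
    {T : Type} [CommRing T] [IsLocalRing T] [IsNoetherianRing T]
    [IsAdicComplete (maximalIdeal T) T] [Algebra 𝒪 T] [IsLocalHom (algebraMap 𝒪 T)]
    [Module.Finite 𝒪 T] [Module.Free 𝒪 T]
    (H : CuspForm.HeckeGaloisRepDatum N (↑S : Set ℕ) 𝒪 θ T)
    (q : ℕ) (hq : q.Prime) (hqp : q ≠ p) (hqN : q ∣ N) (hq2 : ¬ q ^ 2 ∣ N) :
    H.ρ.IsUnipotentOnInertiaAt q :=
  Fermat.Agent.S34.of_S30U
    (stmt_S30U_of (tatePieceU_of_leaves hS hRed)
      (Fermat.Agent.S30.H29.stmt_Assemble_of_FD Fermat.Agent.Lib.FrobDensity.stmt_FD))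
    hp hp𝒪 hpS hNS H q hq hqp hqN hq2

end Fermat.Agent.S34.H91
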