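import Fermat.Agent.S34.H91_Chain
import Fermat.Agent.RED.H36_RM
import Fermat.Agent.RED.H36_EQ
import Fermat.Agent.RED.H51_NDESC
import Fermat.Agent.RED.KD.H22_KD
import Fermat.Agent.RED.ES.H95_ES3a
import Fermat.Agent.RED.H76_DR2

/-!
# S34: the chain from the single open geometric input  (helper91)

* `allRed` : the reduction packages of G-RED at all levels, unconditional (the five packages of
  G-RED are proved: `stmt_DR2`, `stmt_NDESC`, `stmt_KD`, `stmt_EQ`, `stmt_ES3`);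
* `s34_of_modSSD` : the frozen statement S34 from the modular semistable Deuring datum
  `BAD.Stmt_ModSSD M q` at the tame `(M, q)`, `q ‖ M`.
-/

set_option autoImplicit false

open Polynomial IsLocalRing

namespace Fermat.Agent.S34.H91

/-- The reduction packages of G-RED, unconditional. -/
theorem allRed (N : ℕ) [NeZero N] (p : ℕ) (_hp : p.Prime) : Fermat.Agent.GTor.H81.AllRed N p :=
  fun ℓ hℓ hNp A hA =>
    haveI : NeZero ℓ := ⟨hℓ.ne_zero⟩
    Fermat.Agent.RED.H36.allRed_of Fermat.Agent.RED.H76.stmt_DR2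
      Fermat.Agent.RED.H51.stmt_NDESC Fermat.Agent.RED.KD.H22.stmt_KD
      Fermat.Agent.RED.H36.stmt_EQ Fermat.Agent.RED.H95.stmt_ES3 N p ℓ hℓ hNp A hA

/-- **S34 from the modular semistable Deuring datum.** -/
theorem s34_of_modSSD
    (hS : ∀ (M q : ℕ) [NeZero M], q.Prime → q ∣ M → ¬ q ^ 2 ∣ M →
      Fermat.Agent.BAD.H91.Tame M q → Fermat.Agent.BAD.Stmt_ModSSD M q)
    {𝒪 : Type} [CommRing 𝒪] [IsDomain 𝒪] [IsDiscreteValuationRing 𝒪]
    [IsAdicComplete (maximalIdeal 𝒪) 𝒪] [Finite (ResidueField 𝒪)] [CharZero 𝒪]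
    {p : ℕ} (hp : p.Prime) (hp𝒪 : (p : 𝒪) ∈ maximalIdeal 𝒪)
    {N : ℕ} [NeZero N] {S : Finset ℕ} (hpS : p ∈ S) (hNS : ∀ q : ℕ, q.Prime → q ∣ N → q ∈ S)
    {θ : CuspForm.heckeAlgebra N 2 (↑S : Set ℕ) →+* ResidueField 𝒪}
    {T : Type} [CommRing T] [IsLocalRing T] [IsNoetherianRing T]
    [IsAdicComplete (maximalIdeal T) T] [Algebra 𝒪 T] [IsLocalHom (algebraMap 𝒪 T)]
    [Module.Finite 𝒪 T] [Module.Free 𝒪 T]
    (H : CuspForm.HeckeGaloisRepDatum N (↑S : Set ℕ) 𝒪 θ T)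
    (q : ℕ) (hq : q.Prime) (hqp : q ≠ p) (hqN : q ∣ N) (hq2 : ¬ q ^ 2 ∣ N) :
    H.ρ.IsUnipotentOnInertiaAt q :=
  s34_of_leaves hS (fun N _ p hp => allRed N p hp) hp hp𝒪 hpS hNS H q hq hqp hqN hq2

end Fermat.Agent.S34.H91
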