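import Fermat.Agent.S31.Wiring

/-!
# S34 wiring (helper86, cluster R)

`Fermat.Agent.S34.wiring`: the frozen statement S34 (inertia at `q ∥ N`, `q ≠ p`, has
characteristic polynomial `(X - 1) ^ 2` on a Hecke–Galois datum) from

* `Stmt_S30U`   : S30 together with the same property for the representations attached to
                  the `p`-adic points of the Hecke algebra (geometry: toric reduction of
                  `J₀(N)` at `q ∥ N`),
* `Stmt_FD`     : Frobenius density, division form (item 61),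
* `Stmt_SepAll` : `p`-adic separation of the anemic Hecke algebras (leaf L3c).

The statement only involves the characteristic polynomial of `ρ τ`, so it is an instance of
the transfer principle with `g₁ = τ`, `g₂ = 1`; the residual representation plays no role.
-/

set_option autoImplicit false

open Polynomial IsLocalRing

namespace Fermat.Agent.S34

open Fermat.Agent.R

/-- S34 from S30U, Frobenius density and separation of the Hecke algebra. -/
theorem wiring (hS30U : Stmt_S30U) (hFD : Stmt_FD) (hSep : Stmt_SepAll)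
    {𝒪 : Type} [CommRing 𝒪] [IsDomain 𝒪] [IsDiscreteValuationRing 𝒪]
    [IsAdicComplete (maximalIdeal 𝒪) 𝒪] [Finite (ResidueField 𝒪)] [CharZero 𝒪]
    {p : ℕ} (hp : p.Prime) (hp𝒪 : (p : 𝒪) ∈ maximalIdeal 𝒪)
    {N : ℕ} [NeZero N] {S : Finset ℕ} (hpS : p ∈ S) (hNS : ∀ q : ℕ, q.Prime → q ∣ N → q ∈ S)
    {θ : CuspForm.heckeAlgebra N 2 (↑S : Set ℕ) →+* ResidueField 𝒪}
    {T : Type} [CommRing T] [IsLocalRing T] [IsNoetherianRing T]
    [IsAdicComplete (maximalIdeal T) T] [Algebra 𝒪 T] [IsLocalHom (algebraMap 𝒪 T)]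
    [Module.Finite 𝒪 T] [Module.Free 𝒪 T]
    (H : CuspForm.HeckeGaloisRepDatum N (↑S : Set ℕ) 𝒪 θ T)
    (q : ℕ) (hq : q.Prime) (hqp : q ≠ p) (hqN : q ∣ N) (hq2 : ¬ q ^ 2 ∣ N) :
    H.ρ.IsUnipotentOnInertiaAt q := by
  intro P hP τ hτ
  have : Fact p.Prime := ⟨hp⟩
  have hcp : (H.ρ.ρ τ).charpoly = (H.ρ.ρ 1).charpoly := by
    refine transfer_charpoly hp.ne_zero hFD (hSep N S p hp hpS hNS) hNS
      (natCast_mem_maximalIdeal_of_algebra hp𝒪) H.π H.ρ (hasFrobCharpoly_datum H) τ 1 ?_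
    intro P'
    obtain ⟨𝒪'', i1, i2, i3, i4, i5, i6, i7, i8, i9, hinj, ρ', hcp', -, huni⟩ :=
      hS30U p N S hpS hNS P'.R P'.hp P'.χ
    refine ⟨𝒪'', i1, i2, i3, i6, algebraMap P'.R 𝒪'', hinj, i9, ρ', ?_, ?_⟩
    · intro ℓ hℓ hℓN hℓS B hB σ hσ
      exact hcp' ℓ hℓ hℓN hℓS B hB σ hσ
    · rw [huni q hq hqN hq2 hqp P hP τ hτ, map_one, LinearMap.charpoly_one, ρ'.finrank_eq]
  rw [hcp, map_one, LinearMap.charpoly_one, H.ρ.finrank_eq]

end Fermat.Agent.S34
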